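import Fermat.Agent.S14.FirstIneq.Defs

/-!
# S14 / FirstIneq / Alg : shared basic lemmas of the block (owner: block architect helper30)

Elementary facts on `normHom`, `delHom`, and the index calculus used by all leaves of the block
`FirstIneq/Alg` (the Herbrand quotient identity `herbrand_main`).  All names are prefixed `Alg.`.
-/

set_option autoImplicit false

namespace Fermat.Agent.S14.FirstIneq

variable {Γ : Type*} [CommGroup Γ]

/-- `δ x = 1 ↔ σ x = x`. -/
theorem Alg.delHom_eq_one_iff (σ : Γ →* Γ) (x : Γ) : delHom σ x = 1 ↔ σ x = x := by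
  rw [delHom_apply, div_eq_one]

/-- `x ∈ ker δ ↔ σ x = x`. -/
theorem Alg.mem_ker_delHom (σ : Γ →* Γ) (x : Γ) : x ∈ (delHom σ).ker ↔ σ x = x := by
  rw [MonoidHom.mem_ker, Alg.delHom_eq_one_iff]

/-- Iterates of `σ` fix the fixed points of `σ`. -/
theorem Alg.iterate_of_fixed (σ : Γ →* Γ) {x : Γ} (hx : σ x = x) (i : ℕ) : σ^[i] x = x :=
  Function.iterate_fixed hx i

/-- On `σ`-fixed elements the norm is the `n`-th power. -/
theorem Alg.normHom_of_fixed (σ : Γ →* Γ) (n : ℕ) {x : Γ} (hx : σ x = x) :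
    normHom σ n x = x ^ n := by
  rw [normHom_apply, Finset.prod_congr rfl (fun i _ => Alg.iterate_of_fixed σ hx i),
    Finset.prod_const, Finset.card_range]

/-- `ν (σ x) = σ (ν x)`. -/
theorem Alg.normHom_comm (σ : Γ →* Γ) (n : ℕ) (x : Γ) :
    normHom σ n (σ x) = σ (normHom σ n x) := by
  rw [normHom_apply, normHom_apply, map_prod]
  refine Finset.prod_congr rfl fun i _ => ?_
  rw [← Function.iterate_succ_apply, Function.iterate_succ_apply']

/-- `δ (σ x) = σ (δ x)`. -/
theorem Alg.delHom_comm (σ : Γ →* Γ) (x : Γ) : delHom σ (σ x) = σ (delHom σ x) := by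
  rw [delHom_apply, delHom_apply, map_div]

/-- `δ (ν x) = σ^n x / x`. -/
theorem Alg.delHom_normHom (σ : Γ →* Γ) (n : ℕ) (x : Γ) :
    delHom σ (normHom σ n x) = σ^[n] x / x := by
  rw [delHom_apply, normHom_apply, map_prod, ← Finset.prod_div_distrib]
  have h : ∀ i ∈ Finset.range n, σ (σ^[i] x) / σ^[i] x = σ^[i + 1] x / σ^[i] x := fun i _ => by
    rw [Function.iterate_succ_apply']
  rw [Finset.prod_congr rfl h, Finset.prod_range_div (fun i => σ^[i] x) n,
    Function.iterate_zero_apply]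

/-- `ν (δ x) = σ^n x / x`. -/
theorem Alg.normHom_delHom (σ : Γ →* Γ) (n : ℕ) (x : Γ) :
    normHom σ n (delHom σ x) = σ^[n] x / x := by
  rw [normHom_apply]
  have h : ∀ i ∈ Finset.range n, σ^[i] (delHom σ x) = σ^[i + 1] x / σ^[i] x := fun i _ => by
    rw [delHom_apply, iterate_map_div, ← Function.iterate_succ_apply]
  rw [Finset.prod_congr rfl h, Finset.prod_range_div (fun i => σ^[i] x) n,
    Function.iterate_zero_apply]

/-- Iterates of `σ` preserve a `σ`-stable subgroup. -/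
theorem Alg.iterate_mem (σ : Γ →* Γ) (A : Subgroup Γ) (hσA : ∀ x ∈ A, σ x ∈ A) (i : ℕ) {x : Γ}
    (hx : x ∈ A) : σ^[i] x ∈ A := by
  induction i with
  | zero => simpa using hx
  | succ i ih =>
    rw [Function.iterate_succ_apply']
    exact hσA _ ih

/-- The norm preserves a `σ`-stable subgroup. -/
theorem Alg.normHom_mem (σ : Γ →* Γ) (A : Subgroup Γ) (hσA : ∀ x ∈ A, σ x ∈ A) (n : ℕ) {x : Γ}
    (hx : x ∈ A) : normHom σ n x ∈ A := by
  rw [normHom_apply]
  exact Subgroup.prod_mem A fun i _ => Alg.iterate_mem σ A hσA i hx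

/-- `δ` preserves a `σ`-stable subgroup. -/
theorem Alg.delHom_mem (σ : Γ →* Γ) (A : Subgroup Γ) (hσA : ∀ x ∈ A, σ x ∈ A) {x : Γ}
    (hx : x ∈ A) : delHom σ x ∈ A := by
  rw [delHom_apply]
  exact A.div_mem (hσA x hx) hx

/-- **Index formula for a homomorphism**: for `H ≤ K`,
`[f K : f H] * [K ∩ ker f : H ∩ ker f] = [K : H]` (valid with the convention `0` = infinite). -/
theorem Alg.relIndex_map_mul_relIndex_ker {Γ' : Type*} [CommGroup Γ'] (f : Γ →* Γ')
    {H K : Subgroup Γ} (hHK : H ≤ K) :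
    (H.map f).relIndex (K.map f) * (H ⊓ f.ker).relIndex (K ⊓ f.ker) = H.relIndex K := by
  -- `[f K : f H] = [K : (H ⊔ N) ⊓ K]` with `N = ker f`
  have h1 : (H.map f).relIndex (K.map f) = ((H ⊔ f.ker) ⊓ K).relIndex K := by
    have hK : K ⊔ f.ker = K ⊔ (H ⊔ f.ker) := by
      rw [← sup_assoc, sup_eq_left.mpr hHK]
    rw [Subgroup.relIndex_map_map, hK, Subgroup.relIndex_sup_right, Subgroup.inf_relIndex_right]
  -- `[K ∩ N : H ∩ N] = [(H ⊔ N) ⊓ K : H]`
  have h2 : (H ⊓ f.ker).relIndex (K ⊓ f.ker) = H.relIndex ((H ⊔ f.ker) ⊓ K) := by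
    have hH : H ⊓ f.ker = H ⊓ (K ⊓ f.ker) := by
      rw [← inf_assoc, inf_eq_left.mpr hHK]
    have hmod : (H ⊔ f.ker) ⊓ K = H ⊔ (K ⊓ f.ker) := by
      rw [sup_inf_assoc_of_le f.ker hHK, inf_comm]
    rw [hH, Subgroup.inf_relIndex_right, hmod, Subgroup.relIndex_sup_left]
  rw [h1, h2, mul_comm]
  exact Subgroup.relIndex_mul_relIndex H ((H ⊔ f.ker) ⊓ K) K (le_inf le_sup_left hHK) inf_le_right

/-- For a finitely generated subgroup `X` of a commutative group and `n ≠ 0`, the subgroup of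
`n`-th powers has finite index in `X`. -/
theorem Alg.relIndex_map_pow_ne_zero {X : Subgroup Γ} (hX : X.FG) {n : ℕ} (hn : n ≠ 0) :
    (X.map (powMonoidHom n : Γ →* Γ)).relIndex X ≠ 0 := by
  haveI : Group.FG ↥X := (Group.fg_iff_subgroup_fg X).mpr hX
  -- the quotient of `X` by its `n`-th powers is finitely generated and torsion, hence finite
  have htors : IsMulTorsion (↥X ⧸ (powMonoidHom n : ↥X →* ↥X).range) := by
    intro q
    obtain ⟨g, rfl⟩ := QuotientGroup.mk_surjective q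
    rw [isOfFinOrder_iff_pow_eq_one]
    refine ⟨n, Nat.pos_of_ne_zero hn, ?_⟩
    rw [← QuotientGroup.mk_pow, QuotientGroup.eq_one_iff]
    exact ⟨g, rfl⟩
  haveI : Finite (↥X ⧸ (powMonoidHom n : ↥X →* ↥X).range) :=
    CommGroup.finite_of_fg_isMulTorsion _ htors
  have hidx : (powMonoidHom n : ↥X →* ↥X).range.index ≠ 0 := Subgroup.index_ne_zero_of_finite
  have heq : (X.map (powMonoidHom n : Γ →* Γ)).subgroupOf X = (powMonoidHom n : ↥X →* ↥X).range := by
    ext x
    rw [Subgroup.mem_subgroupOf, Subgroup.mem_map, MonoidHom.mem_range]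
    constructor
    · rintro ⟨y, hy, hyx⟩
      exact ⟨⟨y, hy⟩, Subtype.ext hyx⟩
    · rintro ⟨y, hyx⟩
      exact ⟨y, y.2, congrArg Subtype.val hyx⟩
  rw [Subgroup.relIndex, heq]
  exact hidx

/-- Subgroups of finitely generated subgroups of a commutative group are finitely generated. -/
theorem Alg.fg_of_le {X Y : Subgroup Γ} (hX : X.FG) (hYX : Y ≤ X) : Y.FG := by
  haveI : Group.FG ↥X := (Group.fg_iff_subgroup_fg X).mpr hX
  haveI : Module.Finite ℤ (Additive ↥X) := Module.Finite.iff_addGroup_fg.mpr inferInstance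
  haveI : IsNoetherian ℤ (Additive ↥X) := isNoetherian_of_isNoetherianRing_of_finite ℤ _
  have h1 : ((Y.subgroupOf X).toAddSubgroup).FG := by
    have h := IsNoetherian.noetherian
      (AddSubgroup.toIntSubmodule (Subgroup.toAddSubgroup (Y.subgroupOf X)))
    rwa [Submodule.fg_iff_addSubgroup_fg] at h
  have h2 : (Y.subgroupOf X).FG := (Subgroup.fg_iff_add_fg _).mpr h1
  haveI : Group.FG ↥(Y.subgroupOf X) := (Group.fg_iff_subgroup_fg _).mpr h2
  have h3 : Group.FG ↥((X.subtype.comp (Y.subgroupOf X).subtype).range) := Group.fg_range _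
  have h4 : (X.subtype.comp (Y.subgroupOf X).subtype).range = Y := by
    rw [MonoidHom.range_comp, Subgroup.range_subtype, Subgroup.map_subgroupOf_eq_of_le hYX]
  rw [h4] at h3
  exact (Group.fg_iff_subgroup_fg Y).mp h3

end Fermat.Agent.S14.FirstIneq
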