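import Fermat.Agent.S14.FirstIneq.Alg.Basic

/-!
# S14 / FirstIneq / Alg / Cyclo : the cyclotomic index identity (leaf of the block `FirstIneq/Alg`).

Let `L` be a finitely generated `σ`-stable subgroup without `p`-torsion on which the norm
`ν = 1 + σ + … + σ^(p-1)` is trivial (so `L` is a torsion-free module over `ℤ[ζ_p]`).  Then
`δ = σ - 1` is injective on `L`, `δ^(p-1) L = L^p`, hence `[L : δ L]` is finite and
`[L : L^p] = [L : δ L]^(p-1)`.
The polynomial identity `(X - 1)^(p-1) * u ≡ p`, `u * w ≡ 1` modulo `1 + X + … + X^(p-1)` is taken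
as a hypothesis (`hpoly`); it is proved in the leaf `CycloPoly`.
-/

set_option autoImplicit false

namespace Fermat.Agent.S14.FirstIneq

variable {Γ : Type*} [CommGroup Γ]

/-- Iterating an injective endomorphism `f`: the subgroup of `k`-fold images has index
`[G : f G]^k`. -/
theorem Alg.Cyclo_index_iterate {G : Type*} [CommGroup G] (f : G →* G)
    (hf : Function.Injective f) (k : ℕ) :
    ∃ R : Subgroup G, (∀ x, x ∈ R ↔ ∃ y, f^[k] y = x) ∧ R.index = f.range.index ^ k := by
  induction k with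
  | zero => exact ⟨⊤, by simp, by simp⟩
  | succ k ih =>
    obtain ⟨R, hR, hRi⟩ := ih
    refine ⟨R.map f, ?_, ?_⟩
    · intro x
      rw [Subgroup.mem_map]
      constructor
      · rintro ⟨z, hz, rfl⟩
        obtain ⟨y, rfl⟩ := (hR z).mp hz
        exact ⟨y, Function.iterate_succ_apply' f k y⟩
      · rintro ⟨y, rfl⟩
        exact ⟨f^[k] y, (hR _).mpr ⟨y, rfl⟩, (Function.iterate_succ_apply' f k y).symm⟩
    · rw [Subgroup.index_map_of_injective R hf, hRi, pow_succ]

/-- The endomorphism of the `ℤ`-module `Additive G` induced by `τ`. -/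
noncomputable def Alg.Cyclo_s {G : Type*} [CommGroup G] (τ : G →* G) :
    Module.End ℤ (Additive G) :=
  (MonoidHom.toAdditive τ).toIntLinearMap

theorem Alg.Cyclo_s_apply {G : Type*} [CommGroup G] (τ : G →* G) (x : G) :
    Alg.Cyclo_s τ (Additive.ofMul x) = Additive.ofMul (τ x) := rfl

theorem Alg.Cyclo_s_pow_apply {G : Type*} [CommGroup G] (τ : G →* G) (i : ℕ) (x : G) :
    (Alg.Cyclo_s τ ^ i) (Additive.ofMul x) = Additive.ofMul (τ^[i] x) := by
  induction i with
  | zero => simp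
  | succ i ih =>
    rw [pow_succ', Module.End.mul_apply, ih, Alg.Cyclo_s_apply, Function.iterate_succ_apply']

theorem Alg.Cyclo_s_sub_one_pow_apply {G : Type*} [CommGroup G] (τ : G →* G) (k : ℕ) (x : G) :
    ((Alg.Cyclo_s τ - 1) ^ k) (Additive.ofMul x) = Additive.ofMul ((delHom τ)^[k] x) := by
  induction k with
  | zero => simp
  | succ k ih =>
    rw [pow_succ', Module.End.mul_apply, ih, Function.iterate_succ_apply', LinearMap.sub_apply,
      Module.End.one_apply, Alg.Cyclo_s_apply, delHom_apply, ofMul_div]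

theorem Alg.Cyclo_sum_pow_eq_zero {G : Type*} [CommGroup G] (p : ℕ) (τ : G →* G)
    (hν : ∀ x : G, normHom τ p x = 1) :
    (∑ i ∈ Finset.range p, Alg.Cyclo_s τ ^ i) = 0 := by
  ext m
  obtain ⟨x, rfl⟩ := Additive.ofMul.surjective m
  rw [LinearMap.sum_apply, LinearMap.zero_apply]
  simp_rw [Alg.Cyclo_s_pow_apply]
  rw [← ofMul_prod, ← normHom_apply, hν x, ofMul_one]

/-- KEY: `δ^(p-1) G = G^p` elementwise. -/
theorem Alg.Cyclo_key {G : Type*} [CommGroup G] (p : ℕ) (τ : G →* G)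
    (hν : ∀ x : G, normHom τ p x = 1)
    (hpoly : ∃ u w a b : Polynomial ℤ,
      (Polynomial.X - 1) ^ (p - 1) * u
          = Polynomial.C (p : ℤ) + (∑ i ∈ Finset.range p, Polynomial.X ^ i) * a ∧
        u * w = 1 + (∑ i ∈ Finset.range p, Polynomial.X ^ i) * b) :
    (∀ x : G, ∃ y : G, (delHom τ)^[p - 1] y = x ^ p) ∧
      (∀ y : G, ∃ x : G, (delHom τ)^[p - 1] y = x ^ p) := by
  obtain ⟨u, w, a, b, h1, h2⟩ := hpoly
  have hsum := Alg.Cyclo_sum_pow_eq_zero p τ hν
  have e1 := congrArg (Polynomial.aeval (Alg.Cyclo_s τ)) h1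
  have e2 := congrArg (Polynomial.aeval (Alg.Cyclo_s τ)) h2
  simp only [map_mul, map_add, map_pow, map_sub, map_sum, map_one, Polynomial.aeval_X,
    Polynomial.aeval_C, hsum, zero_mul, add_zero] at e1 e2
  constructor
  · intro x
    refine ⟨Additive.toMul (Polynomial.aeval (Alg.Cyclo_s τ) u (Additive.ofMul x)), ?_⟩
    apply Additive.ofMul.injective
    rw [← Alg.Cyclo_s_sub_one_pow_apply, ofMul_toMul, ← Module.End.mul_apply, e1, ofMul_pow]
    simp
  · intro y
    refine ⟨Additive.toMul (Polynomial.aeval (Alg.Cyclo_s τ) w (Additive.ofMul y)), ?_⟩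
    apply Additive.ofMul.injective
    have e3 : (Alg.Cyclo_s τ - 1) ^ (p - 1) =
        algebraMap ℤ (Module.End ℤ (Additive G)) (p : ℤ) * Polynomial.aeval (Alg.Cyclo_s τ) w := by
      rw [← e1, mul_assoc, e2, mul_one]
    rw [← Alg.Cyclo_s_sub_one_pow_apply, e3, Module.End.mul_apply, ofMul_pow, ofMul_toMul]
    simp

/-- The type-level index identity: `[G : G^p] = [G : δ G]^(p-1)`. -/
theorem Alg.Cyclo_type {G : Type*} [CommGroup G] (p : ℕ) (τ : G →* G)
    (hν : ∀ x : G, normHom τ p x = 1) (htf : ∀ x : G, x ^ p = 1 → x = 1)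
    (hpoly : ∃ u w a b : Polynomial ℤ,
      (Polynomial.X - 1) ^ (p - 1) * u
          = Polynomial.C (p : ℤ) + (∑ i ∈ Finset.range p, Polynomial.X ^ i) * a ∧
        u * w = 1 + (∑ i ∈ Finset.range p, Polynomial.X ^ i) * b) :
    (powMonoidHom p : G →* G).range.index = (delHom τ).range.index ^ (p - 1) := by
  have hinj : Function.Injective (delHom τ) := by
    rw [injective_iff_map_eq_one]
    intro x hx
    have h1 : τ x = x := (Alg.delHom_eq_one_iff τ x).mp hx
    have h2 := Alg.normHom_of_fixed τ p h1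
    rw [hν x] at h2
    exact htf x h2.symm
  obtain ⟨k1, k2⟩ := Alg.Cyclo_key p τ hν hpoly
  obtain ⟨R, hR, hRi⟩ := Alg.Cyclo_index_iterate (delHom τ) hinj (p - 1)
  have hRP : R = (powMonoidHom p : G →* G).range := by
    ext x
    rw [hR, MonoidHom.mem_range]
    constructor
    · rintro ⟨y, rfl⟩
      obtain ⟨z, hz⟩ := k2 y
      exact ⟨z, by rw [powMonoidHom_apply, hz]⟩
    · rintro ⟨z, rfl⟩
      obtain ⟨y, hy⟩ := k1 z
      exact ⟨y, by rw [powMonoidHom_apply, hy]⟩
  rw [← hRP, hRi]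

theorem Alg.cyclo_index (p : ℕ) [Fact p.Prime] (σ : Γ →* Γ) (L : Subgroup Γ) (hL : L.FG)
    (hσL : ∀ x ∈ L, σ x ∈ L) (hν : ∀ x ∈ L, normHom σ p x = 1)
    (htf : ∀ x ∈ L, x ^ p = 1 → x = 1)
    (hpoly : ∃ u w a b : Polynomial ℤ,
      (Polynomial.X - 1) ^ (p - 1) * u
          = Polynomial.C (p : ℤ) + (∑ i ∈ Finset.range p, Polynomial.X ^ i) * a ∧
        u * w = 1 + (∑ i ∈ Finset.range p, Polynomial.X ^ i) * b) :
    (L.map (delHom σ)).relIndex L ≠ 0 ∧
    (L.map (powMonoidHom p : Γ →* Γ)).relIndex L = ((L.map (delHom σ)).relIndex L) ^ (p - 1) := by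
  have hp : p.Prime := Fact.out
  -- the restriction of `σ` to `L`
  let τ : L →* L := (σ.comp L.subtype).codRestrict L (fun x => hσL x x.2)
  have hτ : ∀ x : L, ((τ x : L) : Γ) = σ x := fun x => rfl
  have hτi : ∀ (i : ℕ) (x : L), ((τ^[i] x : L) : Γ) = σ^[i] x := by
    intro i
    induction i with
    | zero => intro x; rfl
    | succ i ih =>
      intro x
      rw [Function.iterate_succ_apply', Function.iterate_succ_apply', hτ, ih]
  have hν' : ∀ x : L, normHom τ p x = 1 := by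
    intro x
    apply Subtype.ext
    rw [normHom_apply, Subgroup.coe_one, ← hν x x.2, normHom_apply, Subgroup.val_finsetProd]
    exact Finset.prod_congr rfl fun i _ => hτi i x
  have htf' : ∀ x : L, x ^ p = 1 → x = 1 := by
    intro x hx
    apply Subtype.ext
    refine htf x x.2 ?_
    rw [← Subgroup.coe_pow, hx, Subgroup.coe_one]
  have key := Alg.Cyclo_type p τ hν' htf' hpoly
  -- transfer of the two subgroups
  have hδ : (L.map (delHom σ)).subgroupOf L = (delHom τ).range := by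
    ext x
    rw [Subgroup.mem_subgroupOf, Subgroup.mem_map, MonoidHom.mem_range]
    constructor
    · rintro ⟨y, hy, hyx⟩
      exact ⟨⟨y, hy⟩, Subtype.ext hyx⟩
    · rintro ⟨y, rfl⟩
      exact ⟨y, y.2, rfl⟩
  have hP : (L.map (powMonoidHom p : Γ →* Γ)).subgroupOf L = (powMonoidHom p : L →* L).range := by
    ext x
    rw [Subgroup.mem_subgroupOf, Subgroup.mem_map, MonoidHom.mem_range]
    constructor
    · rintro ⟨y, hy, hyx⟩
      exact ⟨⟨y, hy⟩, Subtype.ext hyx⟩
    · rintro ⟨y, rfl⟩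
      exact ⟨y, y.2, rfl⟩
  have hfin : (L.map (powMonoidHom p : Γ →* Γ)).relIndex L ≠ 0 :=
    Alg.relIndex_map_pow_ne_zero hL hp.ne_zero
  have e : (L.map (powMonoidHom p : Γ →* Γ)).relIndex L
      = ((L.map (delHom σ)).relIndex L) ^ (p - 1) := by
    rw [Subgroup.relIndex, Subgroup.relIndex, hδ, hP]
    exact key
  refine ⟨?_, e⟩
  intro h0
  rw [e, h0, zero_pow (Nat.sub_ne_zero_of_lt hp.one_lt)] at hfin
  exact hfin rfl

end Fermat.Agent.S14.FirstIneq
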