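import Fermat.Agent.S14.FirstIneq.Alg.Basic

/-!
# S14 / FirstIneq / Alg / CycloPoly : `p = (ζ - 1)^(p-1) * unit` in `ℤ[ζ_p]`, as a polynomial
identity (leaf of the block `FirstIneq/Alg`).

With `Φ = 1 + X + … + X^(p-1)` (the `p`-th cyclotomic polynomial) there are integer polynomials
`u, w` with `(X - 1)^(p-1) * u ≡ p` and `u * w ≡ 1` modulo `Φ`.

The proof works in the domain `AdjoinRoot (cyclotomic p ℤ)`, whose root is a primitive `p`-th root
of unity, and then lifts the unit and its inverse to polynomials.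
-/

set_option autoImplicit false

namespace Fermat.Agent.S14.FirstIneq

open Polynomial in
/-- In a domain, `(ζ - 1) ^ (p - 1)` is associated to `p` for a primitive `p`-th root of unity
`ζ` (`p` prime). -/
theorem Alg.CycloPoly_associated (p : ℕ) [hp : Fact p.Prime] {R : Type*} [CommRing R] [IsDomain R]
    {ζ : R} (hζ : IsPrimitiveRoot ζ p) :
    Associated ((ζ - 1) ^ (p - 1)) (p : R) := by
  have : NeZero p := ⟨hp.out.ne_zero⟩
  rw [← eval_one_cyclotomic_prime (R := R) (p := p),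
    cyclotomic_eq_prod_X_sub_primitiveRoots hζ, eval_prod]
  simp only [eval_sub, eval_X, eval_C]
  rw [← Nat.totient_prime hp.out, ← hζ.card_primitiveRoots, ← Finset.prod_const]
  refine Associated.prod _ _ _ fun η hη ↦ ?_
  have hη' : IsPrimitiveRoot η p := isPrimitiveRoot_of_mem_primitiveRoots hη
  obtain ⟨i, -, hi, hζη⟩ := hζ.isPrimitiveRoot_iff.mp hη'
  rw [← hζη]
  simpa using (hζ.associated_sub_one_pow_sub_one_of_coprime hi).neg_right

open Polynomial in
theorem Alg.cyclo_poly (p : ℕ) [Fact p.Prime] :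
    ∃ u w a b : Polynomial ℤ,
      (Polynomial.X - 1) ^ (p - 1) * u
          = Polynomial.C (p : ℤ) + (∑ i ∈ Finset.range p, Polynomial.X ^ i) * a ∧
        u * w = 1 + (∑ i ∈ Finset.range p, Polynomial.X ^ i) * b := by
  have hp : p.Prime := Fact.out
  have hirr : Irreducible (cyclotomic p ℤ) := cyclotomic.irreducible hp.pos
  have : IsDomain (AdjoinRoot (cyclotomic p ℤ)) := AdjoinRoot.isDomain_of_prime hirr.prime
  have hdeg : (cyclotomic p ℤ).degree ≠ 0 := by
    rw [degree_cyclotomic, Nat.totient_prime hp]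
    have := hp.two_le
    norm_cast
    omega
  have hinj : Function.Injective (AdjoinRoot.of (cyclotomic p ℤ)) :=
    AdjoinRoot.of.injective_of_degree_ne_zero hdeg
  have : CharZero (AdjoinRoot (cyclotomic p ℤ)) := charZero_of_injective_ringHom hinj
  have hroot : IsRoot (cyclotomic p (AdjoinRoot (cyclotomic p ℤ)))
      (AdjoinRoot.root (cyclotomic p ℤ)) := by
    have h := AdjoinRoot.isRoot_root (cyclotomic p ℤ)
    rwa [map_cyclotomic] at h
  have hζ : IsPrimitiveRoot (AdjoinRoot.root (cyclotomic p ℤ)) p :=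
    (isRoot_cyclotomic_iff_charZero hp.pos).mp hroot
  obtain ⟨v, hv⟩ := Alg.CycloPoly_associated p hζ
  obtain ⟨u, hu⟩ := AdjoinRoot.mk_surjective (g := cyclotomic p ℤ)
    (v : AdjoinRoot (cyclotomic p ℤ))
  obtain ⟨w, hw⟩ := AdjoinRoot.mk_surjective (g := cyclotomic p ℤ)
    ((v⁻¹ : (AdjoinRoot (cyclotomic p ℤ))ˣ) : AdjoinRoot (cyclotomic p ℤ))
  have h1 : AdjoinRoot.mk (cyclotomic p ℤ) ((X - 1) ^ (p - 1) * u - C (p : ℤ)) = 0 := by
    rw [map_sub, map_mul, map_pow, map_sub, map_one, AdjoinRoot.mk_X, hu, hv, AdjoinRoot.mk_C]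
    simp
  have h2 : AdjoinRoot.mk (cyclotomic p ℤ) (u * w - 1) = 0 := by
    rw [map_sub, map_mul, map_one, hu, hw, Units.mul_inv, sub_self]
  obtain ⟨a, ha⟩ := AdjoinRoot.mk_eq_zero.mp h1
  obtain ⟨b, hb⟩ := AdjoinRoot.mk_eq_zero.mp h2
  refine ⟨u, w, a, b, ?_, ?_⟩
  · rw [← cyclotomic_prime ℤ p]
    linear_combination ha
  · rw [← cyclotomic_prime ℤ p]
    linear_combination hb

end Fermat.Agent.S14.FirstIneq
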