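import Fermat.Agent.S14.FirstIneq.Alg.Basic

/-!
# S14 / FirstIneq / Alg / Good : existence of a "good" subgroup of finite index
(leaf of the block `FirstIneq/Alg`).

Every finitely generated `σ`-stable subgroup `A` (with `σ^p = 1` on `A`) contains a `σ`-stable
subgroup `B` of finite index without `p`-torsion which is the product of its `σ`-fixed part
`B ∩ ker δ` and of its norm-one part `B ∩ ker ν`.
-/

set_option autoImplicit false

namespace Fermat.Agent.S14.FirstIneq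

variable {Γ : Type*} [CommGroup Γ]

/-- Step 1 (killing the torsion): a finitely generated `σ`-stable subgroup `A` contains a
finitely generated `σ`-stable torsion-free subgroup `T` of finite index (namely the subgroup of
`m`-th powers, `m` the order of the torsion subgroup of `A`). -/
theorem Alg.Good_exists_torsionFree (σ : Γ →* Γ) (A : Subgroup Γ) (hA : A.FG)
    (hσA : ∀ x ∈ A, σ x ∈ A) :
    ∃ T : Subgroup Γ, T ≤ A ∧ T.relIndex A ≠ 0 ∧ (∀ x ∈ T, σ x ∈ T) ∧ T.FG ∧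
      (∀ x ∈ T, ∀ n : ℕ, n ≠ 0 → x ^ n = 1 → x = 1) := by
  -- the torsion subgroup of `A` is finitely generated and torsion, hence finite
  have hTorFG : (A ⊓ CommGroup.torsion Γ).FG := Alg.fg_of_le hA inf_le_left
  have : Group.FG ↥(A ⊓ CommGroup.torsion Γ) := (Group.fg_iff_subgroup_fg _).mpr hTorFG
  have htors : IsMulTorsion ↥(A ⊓ CommGroup.torsion Γ) := by
    rintro ⟨x, hx⟩
    have hx2 : IsOfFinOrder x := (CommGroup.mem_torsion x).mp (Subgroup.mem_inf.mp hx).2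
    obtain ⟨n, hn, hxn⟩ := isOfFinOrder_iff_pow_eq_one.mp hx2
    exact isOfFinOrder_iff_pow_eq_one.mpr ⟨n, hn, Subtype.ext (by simpa using hxn)⟩
  have : Finite ↥(A ⊓ CommGroup.torsion Γ) := CommGroup.finite_of_fg_isMulTorsion _ htors
  have hm0 : Nat.card ↥(A ⊓ CommGroup.torsion Γ) ≠ 0 := Nat.card_pos.ne'
  have hpow : ∀ t ∈ A ⊓ CommGroup.torsion Γ, t ^ Nat.card ↥(A ⊓ CommGroup.torsion Γ) = 1 := by
    intro t ht
    have h := pow_card_eq_one' (G := ↥(A ⊓ CommGroup.torsion Γ)) (x := ⟨t, ht⟩)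
    simpa using congrArg Subtype.val h
  have hTA : A.map (powMonoidHom (Nat.card ↥(A ⊓ CommGroup.torsion Γ)) : Γ →* Γ) ≤ A := by
    rintro _ ⟨x, hx, rfl⟩
    exact A.pow_mem hx _
  refine ⟨A.map (powMonoidHom (Nat.card ↥(A ⊓ CommGroup.torsion Γ)) : Γ →* Γ), hTA,
    Alg.relIndex_map_pow_ne_zero hA hm0, ?_, Alg.fg_of_le hA hTA, ?_⟩
  · rintro _ ⟨x, hx, rfl⟩
    exact ⟨σ x, hσA x hx, by simp [map_pow]⟩
  · rintro _ ⟨x, hx, rfl⟩ n hn h
    have hx' : x ∈ A ⊓ CommGroup.torsion Γ := by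
      refine Subgroup.mem_inf.mpr ⟨hx, ?_⟩
      rw [CommGroup.mem_torsion, isOfFinOrder_iff_pow_eq_one]
      refine ⟨Nat.card ↥(A ⊓ CommGroup.torsion Γ) * n,
        Nat.mul_pos (Nat.pos_of_ne_zero hm0) (Nat.pos_of_ne_zero hn), ?_⟩
      rw [pow_mul]
      exact h
    exact hpow x hx'

theorem Alg.exists_good (p : ℕ) [Fact p.Prime] (σ : Γ →* Γ) (A : Subgroup Γ) (hA : A.FG)
    (hσA : ∀ x ∈ A, σ x ∈ A) (hσp : ∀ x ∈ A, σ^[p] x = x) :
    ∃ B : Subgroup Γ, B ≤ A ∧ B.relIndex A ≠ 0 ∧ (∀ x ∈ B, σ x ∈ B) ∧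
      (∀ x ∈ B, x ^ p = 1 → x = 1) ∧
      (∀ x ∈ B, ∃ y ∈ B ⊓ (delHom σ).ker, ∃ z ∈ B ⊓ (normHom σ p).ker, x = y * z) := by
  obtain ⟨T, hTA, hTidx, hσT, hTFG, hTtf⟩ := Alg.Good_exists_torsionFree σ A hA hσA
  have hp0 : p ≠ 0 := (Fact.out : p.Prime).ne_zero
  have hBT : (T ⊓ (delHom σ).ker) ⊔ (T ⊓ (normHom σ p).ker) ≤ T := sup_le inf_le_left inf_le_left
  -- the `p`-th powers of `T` lie in `B`
  have hPB : T.map (powMonoidHom p : Γ →* Γ) ≤
      (T ⊓ (delHom σ).ker) ⊔ (T ⊓ (normHom σ p).ker) := by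
    rintro _ ⟨x, hx, rfl⟩
    have hν : normHom σ p x ∈ T := Alg.normHom_mem σ T hσT p hx
    have hfix : σ (normHom σ p x) = normHom σ p x := by
      rw [← Alg.delHom_eq_one_iff, Alg.delHom_normHom, hσp x (hTA hx), div_self']
    refine Subgroup.mem_sup.mpr ⟨normHom σ p x, ?_, x ^ p / normHom σ p x, ?_, ?_⟩
    · exact Subgroup.mem_inf.mpr ⟨hν, (Alg.mem_ker_delHom σ _).mpr hfix⟩
    · refine Subgroup.mem_inf.mpr ⟨T.div_mem (T.pow_mem hx p) hν, ?_⟩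
      rw [MonoidHom.mem_ker, map_div, map_pow, Alg.normHom_of_fixed σ p hfix, div_self']
    · rw [powMonoidHom_apply, mul_div_cancel]
  -- finiteness of the index
  have hidxT : ((T ⊓ (delHom σ).ker) ⊔ (T ⊓ (normHom σ p).ker)).relIndex T ≠ 0 := by
    have h1 : (T.map (powMonoidHom p : Γ →* Γ)).relIndex T ≠ 0 :=
      Alg.relIndex_map_pow_ne_zero hTFG hp0
    have h2 : ((T ⊓ (delHom σ).ker) ⊔ (T ⊓ (normHom σ p).ker)).relIndex T ∣
        (T.map (powMonoidHom p : Γ →* Γ)).relIndex T :=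
      Subgroup.relIndex_dvd_of_le_left T hPB
    exact fun h0 => h1 (Nat.eq_zero_of_zero_dvd (h0 ▸ h2))
  have hidxA : ((T ⊓ (delHom σ).ker) ⊔ (T ⊓ (normHom σ p).ker)).relIndex A ≠ 0 := by
    rw [← Subgroup.relIndex_mul_relIndex _ T A hBT hTA]
    exact Nat.mul_ne_zero hidxT hTidx
  refine ⟨(T ⊓ (delHom σ).ker) ⊔ (T ⊓ (normHom σ p).ker), hBT.trans hTA, hidxA, ?_, ?_, ?_⟩
  · -- `σ`-stability
    intro x hx
    obtain ⟨y, hy, z, hz, rfl⟩ := Subgroup.mem_sup.mp hx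
    obtain ⟨hyT, hyK⟩ := Subgroup.mem_inf.mp hy
    obtain ⟨hzT, hzK⟩ := Subgroup.mem_inf.mp hz
    rw [map_mul]
    refine Subgroup.mem_sup.mpr ⟨σ y, ?_, σ z, ?_, rfl⟩
    · rw [(Alg.mem_ker_delHom σ y).mp hyK]
      exact hy
    · refine Subgroup.mem_inf.mpr ⟨hσT z hzT, ?_⟩
      rw [MonoidHom.mem_ker, Alg.normHom_comm, MonoidHom.mem_ker.mp hzK, map_one]
  · -- no `p`-torsion
    intro x hx hxp
    exact hTtf x (hBT hx) p hp0 hxp
  · -- splitting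
    intro x hx
    obtain ⟨y, hy, z, hz, rfl⟩ := Subgroup.mem_sup.mp hx
    obtain ⟨hyT, hyK⟩ := Subgroup.mem_inf.mp hy
    obtain ⟨hzT, hzK⟩ := Subgroup.mem_inf.mp hz
    exact ⟨y, Subgroup.mem_inf.mpr ⟨le_sup_left (a := T ⊓ (delHom σ).ker) hy, hyK⟩,
      z, Subgroup.mem_inf.mpr ⟨le_sup_right (b := T ⊓ (normHom σ p).ker) hz, hzK⟩, rfl⟩

end Fermat.Agent.S14.FirstIneq
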