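import Fermat.Agent.S14.FirstIneq.Alg.Basic

/-!
# S14 / FirstIneq / Alg / Index : invariance of the (generalised) Herbrand quotient under passage
to a stable subgroup of finite index (leaf of the block `FirstIneq/Alg`).

For commuting-to-zero endomorphisms `f, g` (`f ∘ g = 1 = g ∘ f` on `A`) and a subgroup `B ≤ A` of
finite index, stable under `f` and `g`, with `q⁰(X) = [X ∩ ker f : g X]`, `q¹(X) = [X ∩ ker g : f X]`:
`q⁰(A) * q¹(B) = q⁰(B) * q¹(A)`, and finiteness of `q⁰(B)` (resp. `q¹(B)`) implies that of `q⁰(A)`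
(resp. `q¹(A)`).
-/

set_option autoImplicit false

namespace Fermat.Agent.S14.FirstIneq

variable {Γ : Type*} [CommGroup Γ]

/-- Two towers of subgroups between `g B` and `A ∩ ker f`. -/
theorem Alg.Index_tower (f g : Γ →* Γ) (A B : Subgroup Γ) (hBA : B ≤ A)
    (hgA : ∀ x ∈ A, g x ∈ A) (hgB : ∀ x ∈ B, g x ∈ B) (hfg : ∀ x ∈ A, f (g x) = 1) :
    (B.map g).relIndex (A.map g) * (A.map g).relIndex (A ⊓ f.ker)
      = (B.map g).relIndex (B ⊓ f.ker) * (B ⊓ f.ker).relIndex (A ⊓ f.ker) := by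
  have h1 : B.map g ≤ A.map g := Subgroup.map_mono hBA
  have h2 : A.map g ≤ A ⊓ f.ker := by
    rintro _ ⟨x, hx, rfl⟩
    exact Subgroup.mem_inf.mpr ⟨hgA x hx, MonoidHom.mem_ker.mpr (hfg x hx)⟩
  have h3 : B.map g ≤ B ⊓ f.ker := by
    rintro _ ⟨x, hx, rfl⟩
    exact Subgroup.mem_inf.mpr ⟨hgB x hx, MonoidHom.mem_ker.mpr (hfg x (hBA hx))⟩
  have h4 : B ⊓ f.ker ≤ A ⊓ f.ker := inf_le_inf_right _ hBA
  rw [Subgroup.relIndex_mul_relIndex _ _ _ h1 h2, Subgroup.relIndex_mul_relIndex _ _ _ h3 h4]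

/-- The arithmetic of `Alg.index_invariance`. -/
theorem Alg.Index_arith (x y u v n q0A q0B q1A q1B : ℕ) (hn : n ≠ 0)
    (T0 : x * q0A = q0B * u) (T1 : y * q1A = q1B * v) (F : y * u = n) (G : x * v = n) :
    q0A * q1B = q0B * q1A ∧ (q0B ≠ 0 → q0A ≠ 0) ∧ (q1B ≠ 0 → q1A ≠ 0) := by
  have hu : u ≠ 0 := by
    rintro rfl
    rw [mul_zero] at F
    exact hn F.symm
  have hv : v ≠ 0 := by
    rintro rfl
    rw [mul_zero] at G
    exact hn G.symm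
  refine ⟨?_, ?_, ?_⟩
  · apply Nat.eq_of_mul_eq_mul_left (Nat.pos_of_ne_zero hn)
    calc n * (q0A * q1B) = (x * q0A) * (q1B * v) := by rw [← G]; ring
      _ = (q0B * u) * (y * q1A) := by rw [T0, T1]
      _ = n * (q0B * q1A) := by rw [← F]; ring
  · intro h0 hA
    rw [hA, mul_zero] at T0
    exact (mul_ne_zero h0 hu) T0.symm
  · intro h1 hA
    rw [hA, mul_zero] at T1
    exact (mul_ne_zero h1 hv) T1.symm

theorem Alg.index_invariance (f g : Γ →* Γ) (A B : Subgroup Γ) (hBA : B ≤ A)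
    (hfin : B.relIndex A ≠ 0)
    (hfA : ∀ x ∈ A, f x ∈ A) (hgA : ∀ x ∈ A, g x ∈ A)
    (hfB : ∀ x ∈ B, f x ∈ B) (hgB : ∀ x ∈ B, g x ∈ B)
    (hfg : ∀ x ∈ A, f (g x) = 1) (hgf : ∀ x ∈ A, g (f x) = 1) :
    (A.map g).relIndex (A ⊓ f.ker) * (B.map f).relIndex (B ⊓ g.ker)
        = (B.map g).relIndex (B ⊓ f.ker) * (A.map f).relIndex (A ⊓ g.ker) ∧
      ((B.map g).relIndex (B ⊓ f.ker) ≠ 0 → (A.map g).relIndex (A ⊓ f.ker) ≠ 0) ∧
      ((B.map f).relIndex (B ⊓ g.ker) ≠ 0 → (A.map f).relIndex (A ⊓ g.ker) ≠ 0) := by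
  have T0 := Alg.Index_tower f g A B hBA hgA hgB hfg
  have T1 := Alg.Index_tower g f A B hBA hfA hfB hgf
  have F := Alg.relIndex_map_mul_relIndex_ker f hBA
  have G := Alg.relIndex_map_mul_relIndex_ker g hBA
  exact Alg.Index_arith _ _ _ _ _ _ _ _ _ hfin T0 T1 F G

end Fermat.Agent.S14.FirstIneq
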