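import Fermat.Agent.S14.FirstIneq.Alg.Basic

/-!
# S14 / FirstIneq / Alg / Split : the Herbrand identity for a "good" subgroup
(leaf of the block `FirstIneq/Alg`).

Let `B` be finitely generated, `σ`-stable, `σ^p = 1` on `B`, without `p`-torsion, and
`B = (B ∩ ker δ) * (B ∩ ker ν)`.  Assume the cyclotomic index identity
`[B_ν : B_ν^p] = [B_ν : δ B_ν]^(p-1)` for `B_ν = B ∩ ker ν` (hypotheses `hc0`, `hc`; they are
supplied by the leaf `Cyclo`).  Then `h⁰(B) = [B_δ : B_δ^p]` and `h¹(B) = [B_ν : δ B_ν]` are finite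
and `h⁰(B)^(p-1) * [B : B^p] = h¹(B)^(p-1) * [B_δ : B_δ^p]^p`  (`B_δ = B ∩ ker δ`).
-/

set_option autoImplicit false

namespace Fermat.Agent.S14.FirstIneq

variable {Γ : Type*} [CommGroup Γ]

/-- (F1) On `B ∩ ker δ` the norm is the `p`-th power. -/
theorem Alg.Split_norm_of_mem (p : ℕ) (σ : Γ →* Γ) (B : Subgroup Γ) {y : Γ}
    (hy : y ∈ B ⊓ (delHom σ).ker) : normHom σ p y = y ^ p :=
  Alg.normHom_of_fixed σ p ((Alg.mem_ker_delHom σ y).mp (Subgroup.mem_inf.mp hy).2)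

/-- (F3) `ν B = (B ∩ ker δ)^p`. -/
theorem Alg.Split_map_norm (p : ℕ) (σ : Γ →* Γ) (B : Subgroup Γ)
    (hsplit : ∀ x ∈ B, ∃ y ∈ B ⊓ (delHom σ).ker, ∃ z ∈ B ⊓ (normHom σ p).ker, x = y * z) :
    B.map (normHom σ p) = (B ⊓ (delHom σ).ker).map (powMonoidHom p : Γ →* Γ) := by
  ext x
  simp only [Subgroup.mem_map]
  constructor
  · rintro ⟨b, hb, rfl⟩
    obtain ⟨y, hy, z, hz, rfl⟩ := hsplit b hb
    have hzν : normHom σ p z = 1 := MonoidHom.mem_ker.mp (Subgroup.mem_inf.mp hz).2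
    refine ⟨y, hy, ?_⟩
    rw [map_mul, hzν, mul_one, Alg.Split_norm_of_mem p σ B hy, powMonoidHom_apply]
  · rintro ⟨y, hy, rfl⟩
    refine ⟨y, (Subgroup.mem_inf.mp hy).1, ?_⟩
    rw [Alg.Split_norm_of_mem p σ B hy, powMonoidHom_apply]

/-- (F4) `δ B = δ (B ∩ ker ν)`. -/
theorem Alg.Split_map_del (p : ℕ) (σ : Γ →* Γ) (B : Subgroup Γ)
    (hsplit : ∀ x ∈ B, ∃ y ∈ B ⊓ (delHom σ).ker, ∃ z ∈ B ⊓ (normHom σ p).ker, x = y * z) :
    B.map (delHom σ) = (B ⊓ (normHom σ p).ker).map (delHom σ) := by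
  apply le_antisymm
  · rintro x ⟨b, hb, rfl⟩
    obtain ⟨y, hy, z, hz, rfl⟩ := hsplit b hb
    have hyδ : delHom σ y = 1 := MonoidHom.mem_ker.mp (Subgroup.mem_inf.mp hy).2
    refine ⟨z, hz, ?_⟩
    rw [map_mul, hyδ, one_mul]
  · exact Subgroup.map_mono inf_le_left

/-- `B^p ∩ ker ν = (B ∩ ker ν)^p`. -/
theorem Alg.Split_map_pow_inf_ker (p : ℕ) (σ : Γ →* Γ) (B : Subgroup Γ)
    (htf : ∀ x ∈ B, x ^ p = 1 → x = 1)
    (hsplit : ∀ x ∈ B, ∃ y ∈ B ⊓ (delHom σ).ker, ∃ z ∈ B ⊓ (normHom σ p).ker, x = y * z) :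
    B.map (powMonoidHom p : Γ →* Γ) ⊓ (normHom σ p).ker
      = (B ⊓ (normHom σ p).ker).map (powMonoidHom p : Γ →* Γ) := by
  apply le_antisymm
  · intro x hx
    obtain ⟨hx1, hx2⟩ := Subgroup.mem_inf.mp hx
    obtain ⟨b, hb, rfl⟩ := Subgroup.mem_map.mp hx1
    obtain ⟨y, hy, z, hz, rfl⟩ := hsplit b hb
    have hyB : y ∈ B := (Subgroup.mem_inf.mp hy).1
    have hzν : normHom σ p z = 1 := MonoidHom.mem_ker.mp (Subgroup.mem_inf.mp hz).2
    have h1 : normHom σ p ((y * z) ^ p) = 1 := MonoidHom.mem_ker.mp hx2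
    rw [map_pow, map_mul, hzν, mul_one, Alg.Split_norm_of_mem p σ B hy] at h1
    have hyp : y ^ p = 1 := htf _ (B.pow_mem hyB p) h1
    refine Subgroup.mem_map.mpr ⟨z, hz, ?_⟩
    rw [powMonoidHom_apply, powMonoidHom_apply, mul_pow, hyp, one_mul]
  · rintro x ⟨z, hz, rfl⟩
    have hzν : normHom σ p z = 1 := MonoidHom.mem_ker.mp (Subgroup.mem_inf.mp hz).2
    refine Subgroup.mem_inf.mpr ⟨Subgroup.mem_map.mpr ⟨z, (Subgroup.mem_inf.mp hz).1, rfl⟩, ?_⟩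
    rw [MonoidHom.mem_ker, powMonoidHom_apply, map_pow, hzν, one_pow]

/-- `ν (B^p) = ((B ∩ ker δ)^p)^p`. -/
theorem Alg.Split_map_pow_map_norm (p : ℕ) (σ : Γ →* Γ) (B : Subgroup Γ)
    (hsplit : ∀ x ∈ B, ∃ y ∈ B ⊓ (delHom σ).ker, ∃ z ∈ B ⊓ (normHom σ p).ker, x = y * z) :
    (B.map (powMonoidHom p : Γ →* Γ)).map (normHom σ p)
      = (((B ⊓ (delHom σ).ker).map (powMonoidHom p : Γ →* Γ))).map (powMonoidHom p : Γ →* Γ) := by
  rw [← Alg.Split_map_norm p σ B hsplit, Subgroup.map_map, Subgroup.map_map]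
  congr 1
  ext x
  simp only [MonoidHom.comp_apply, powMonoidHom_apply, map_pow]

/-- `[(B_δ)^p : ((B_δ)^p)^p] = [B_δ : (B_δ)^p]` when `B_δ` has no `p`-torsion. -/
theorem Alg.Split_relIndex_pow_pow (p : ℕ) (A : Subgroup Γ)
    (htf : ∀ x ∈ A, x ^ p = 1 → x = 1) :
    ((A.map (powMonoidHom p : Γ →* Γ)).map (powMonoidHom p : Γ →* Γ)).relIndex
        (A.map (powMonoidHom p : Γ →* Γ))
      = (A.map (powMonoidHom p : Γ →* Γ)).relIndex A := by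
  have hle : A.map (powMonoidHom p : Γ →* Γ) ≤ A := by
    rintro x ⟨a, ha, rfl⟩
    exact A.pow_mem ha p
  have hbot : A ⊓ (powMonoidHom p : Γ →* Γ).ker = ⊥ := by
    rw [Subgroup.eq_bot_iff_forall]
    intro x hx
    obtain ⟨hxA, hxk⟩ := Subgroup.mem_inf.mp hx
    exact htf x hxA (MonoidHom.mem_ker.mp hxk)
  have h := Alg.relIndex_map_mul_relIndex_ker (powMonoidHom p : Γ →* Γ) hle
  rw [hbot, Subgroup.relIndex_bot_right, mul_one] at h
  exact h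

/-- (F6) `[B : B^p] = [B_δ : B_δ^p] * [B_ν : B_ν^p]`. -/
theorem Alg.Split_relIndex_pow (p : ℕ) (σ : Γ →* Γ) (B : Subgroup Γ)
    (htf : ∀ x ∈ B, x ^ p = 1 → x = 1)
    (hsplit : ∀ x ∈ B, ∃ y ∈ B ⊓ (delHom σ).ker, ∃ z ∈ B ⊓ (normHom σ p).ker, x = y * z) :
    (B.map (powMonoidHom p : Γ →* Γ)).relIndex B
      = ((B ⊓ (delHom σ).ker).map (powMonoidHom p : Γ →* Γ)).relIndex (B ⊓ (delHom σ).ker)
        * ((B ⊓ (normHom σ p).ker).map (powMonoidHom p : Γ →* Γ)).relIndex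
            (B ⊓ (normHom σ p).ker) := by
  have hle : B.map (powMonoidHom p : Γ →* Γ) ≤ B := by
    rintro x ⟨a, ha, rfl⟩
    exact B.pow_mem ha p
  have h := Alg.relIndex_map_mul_relIndex_ker (normHom σ p) hle
  rw [Alg.Split_map_pow_inf_ker p σ B htf hsplit, Alg.Split_map_pow_map_norm p σ B hsplit,
    Alg.Split_map_norm p σ B hsplit,
    Alg.Split_relIndex_pow_pow p (B ⊓ (delHom σ).ker)
      (fun x hx => htf x (Subgroup.mem_inf.mp hx).1)] at h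
  exact h.symm

set_option linter.unusedVariables false in
/-- **Herbrand identity for a split subgroup** (the hypotheses `hσB`, `hσp` are not needed in
the proof; they are kept because the statement is used as a black box elsewhere). -/
theorem Alg.herbrand_split (p : ℕ) [Fact p.Prime] (σ : Γ →* Γ) (B : Subgroup Γ) (hB : B.FG)
    (hσB : ∀ x ∈ B, σ x ∈ B) (hσp : ∀ x ∈ B, σ^[p] x = x)
    (htf : ∀ x ∈ B, x ^ p = 1 → x = 1)
    (hsplit : ∀ x ∈ B, ∃ y ∈ B ⊓ (delHom σ).ker, ∃ z ∈ B ⊓ (normHom σ p).ker, x = y * z)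
    (hc0 : ((B ⊓ (normHom σ p).ker).map (delHom σ)).relIndex (B ⊓ (normHom σ p).ker) ≠ 0)
    (hc : ((B ⊓ (normHom σ p).ker).map (powMonoidHom p : Γ →* Γ)).relIndex
          (B ⊓ (normHom σ p).ker)
        = (((B ⊓ (normHom σ p).ker).map (delHom σ)).relIndex (B ⊓ (normHom σ p).ker)) ^ (p - 1)) :
    (B.map (normHom σ p)).relIndex (B ⊓ (delHom σ).ker) ≠ 0 ∧
    (B.map (delHom σ)).relIndex (B ⊓ (normHom σ p).ker) ≠ 0 ∧
    ((B.map (normHom σ p)).relIndex (B ⊓ (delHom σ).ker)) ^ (p - 1)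
        * (B.map (powMonoidHom p : Γ →* Γ)).relIndex B
      = ((B.map (delHom σ)).relIndex (B ⊓ (normHom σ p).ker)) ^ (p - 1)
        * (((B ⊓ (delHom σ).ker).map (powMonoidHom p : Γ →* Γ)).relIndex
            (B ⊓ (delHom σ).ker)) ^ p := by
  have hp : p ≠ 0 := (Fact.out : p.Prime).ne_zero
  have he : ((B ⊓ (delHom σ).ker).map (powMonoidHom p : Γ →* Γ)).relIndex
      (B ⊓ (delHom σ).ker) ≠ 0 :=
    Alg.relIndex_map_pow_ne_zero (Alg.fg_of_le hB inf_le_left) hp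
  rw [Alg.Split_map_norm p σ B hsplit, Alg.Split_map_del p σ B hsplit,
    Alg.Split_relIndex_pow p σ B htf hsplit, hc]
  refine ⟨he, hc0, ?_⟩
  generalize ((B ⊓ (delHom σ).ker).map (powMonoidHom p : Γ →* Γ)).relIndex
      (B ⊓ (delHom σ).ker) = e
  generalize ((B ⊓ (normHom σ p).ker).map (delHom σ)).relIndex (B ⊓ (normHom σ p).ker) = d
  obtain ⟨q, rfl⟩ : ∃ q, p = q + 1 := Nat.exists_eq_succ_of_ne_zero hp
  rw [Nat.add_sub_cancel, pow_succ e q]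
  ring

end Fermat.Agent.S14.FirstIneq
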