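import Fermat.Agent.S14.FirstIneq.Defs
import Fermat.Agent.S14.FirstIneq.Alg.Basic
import Fermat.Agent.S14.FirstIneq.Alg.Index
import Fermat.Agent.S14.FirstIneq.Alg.Good
import Fermat.Agent.S14.FirstIneq.Alg.Split
import Fermat.Agent.S14.FirstIneq.Alg.Cyclo
import Fermat.Agent.S14.FirstIneq.Alg.CycloPoly

/-!
# S14 / FirstIneq / Alg : the Herbrand quotient of a finitely generated abelian group with an
automorphism of prime order `p`, in terms of `p`-power indices.  Statement FROZEN (helper12).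

For a `σ`-stable finitely generated subgroup `A` of a commutative group `Γ` with `σ^p = 1` on `A`
put `h⁰ = [A^σ : ν A]`, `h¹ = [ker ν ∩ A : δ A]` (`ν = normHom σ p`, `δ = delHom σ`). Then
`h⁰^(p-1) · [A : A^p] · |A^σ[p]|^p = h¹^(p-1) · [A^σ : (A^σ)^p]^p · |A[p]|`.
-/

set_option autoImplicit false

namespace Fermat.Agent.S14.FirstIneq

/-- The arithmetic of the reduction of `herbrand_main` to a good subgroup `B` of finite index. -/
theorem Alg.main_arith (p : ℕ) (hp : p ≠ 0) (a0 a1 b0 b1 iA iB iAσ iBσ tA tAσ : ℕ) (hb1 : b1 ≠ 0)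
    (E1 : a0 * b1 = b0 * a1) (E2 : iA = iB * tA) (E3 : iAσ = iBσ * tAσ)
    (hB : b0 ^ (p - 1) * iB = b1 ^ (p - 1) * iBσ ^ p) :
    a0 ^ (p - 1) * iA * tAσ ^ p = a1 ^ (p - 1) * iAσ ^ p * tA := by
  obtain ⟨n, rfl⟩ := Nat.exists_eq_succ_of_ne_zero hp
  simp only [Nat.succ_eq_add_one, Nat.add_sub_cancel] at hB ⊢
  have hpos : 0 < b1 ^ n := pow_pos (Nat.pos_of_ne_zero hb1) n
  apply Nat.eq_of_mul_eq_mul_left hpos
  calc b1 ^ n * (a0 ^ n * iA * tAσ ^ (n + 1))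
      = (a0 * b1) ^ n * iA * tAσ ^ (n + 1) := by ring
    _ = (b0 * a1) ^ n * (iB * tA) * tAσ ^ (n + 1) := by rw [E1, E2]
    _ = a1 ^ n * (b0 ^ n * iB) * tA * tAσ ^ (n + 1) := by ring
    _ = a1 ^ n * (b1 ^ n * iBσ ^ (n + 1)) * tA * tAσ ^ (n + 1) := by rw [hB]
    _ = b1 ^ n * (a1 ^ n * (iBσ * tAσ) ^ (n + 1) * tA) := by ring
    _ = b1 ^ n * (a1 ^ n * iAσ ^ (n + 1) * tA) := by rw [E3]

theorem herbrand_main {Γ : Type*} [CommGroup Γ] (p : ℕ) [Fact p.Prime] (σ : Γ →* Γ)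
    (A : Subgroup Γ) (hA : A.FG) (hσA : ∀ x ∈ A, σ x ∈ A) (hσp : ∀ x ∈ A, σ^[p] x = x) :
    (A.map (normHom σ p)).relIndex (A ⊓ (delHom σ).ker) ≠ 0 ∧
    (A.map (delHom σ)).relIndex (A ⊓ (normHom σ p).ker) ≠ 0 ∧
    ((A.map (normHom σ p)).relIndex (A ⊓ (delHom σ).ker)) ^ (p - 1)
        * (A.map (powMonoidHom p : Γ →* Γ)).relIndex A
        * (Nat.card ↥(A ⊓ (delHom σ).ker ⊓ (powMonoidHom p : Γ →* Γ).ker)) ^ p
      = ((A.map (delHom σ)).relIndex (A ⊓ (normHom σ p).ker)) ^ (p - 1)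
        * (((A ⊓ (delHom σ).ker).map (powMonoidHom p : Γ →* Γ)).relIndex
            (A ⊓ (delHom σ).ker)) ^ p
        * Nat.card ↥(A ⊓ (powMonoidHom p : Γ →* Γ).ker) := by
  have hp : p.Prime := Fact.out
  -- a good subgroup `B` of finite index
  obtain ⟨B, hBA, hfin, hσB, htf, hsplit⟩ := Alg.exists_good p σ A hA hσA hσp
  have hBfg : B.FG := Alg.fg_of_le hA hBA
  have hσpB : ∀ x ∈ B, σ^[p] x = x := fun x hx => hσp x (hBA hx)
  -- the cyclotomic identity for the norm-one part of `B`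
  have hLfg : (B ⊓ (normHom σ p).ker).FG := Alg.fg_of_le hBfg inf_le_left
  have hσL : ∀ x ∈ B ⊓ (normHom σ p).ker, σ x ∈ B ⊓ (normHom σ p).ker := by
    intro x hx
    obtain ⟨hxB, hxν⟩ := Subgroup.mem_inf.mp hx
    refine Subgroup.mem_inf.mpr ⟨hσB x hxB, ?_⟩
    rw [MonoidHom.mem_ker] at hxν ⊢
    rw [Alg.normHom_comm, hxν, map_one]
  obtain ⟨hc0, hc⟩ := Alg.cyclo_index p σ (B ⊓ (normHom σ p).ker) hLfg hσL
    (fun x hx => MonoidHom.mem_ker.mp hx.2) (fun x hx => htf x hx.1) (Alg.cyclo_poly p)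
  -- the identity for `B`
  obtain ⟨hb0, hb1, hBeq⟩ := Alg.herbrand_split p σ B hBfg hσB hσpB htf hsplit hc0 hc
  -- invariance of the Herbrand quotient of `(δ, ν)`
  obtain ⟨E1, ha0, ha1⟩ := Alg.index_invariance (delHom σ) (normHom σ p) A B hBA hfin
    (fun x hx => Alg.delHom_mem σ A hσA hx) (fun x hx => Alg.normHom_mem σ A hσA p hx)
    (fun x hx => Alg.delHom_mem σ B hσB hx) (fun x hx => Alg.normHom_mem σ B hσB p hx)
    (fun x hx => by rw [Alg.delHom_normHom, hσp x hx, div_self'])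
    (fun x hx => by rw [Alg.normHom_delHom, hσp x hx, div_self'])
  -- invariance of the Herbrand quotient of `(1, x ↦ x ^ p)` on `A ⊇ B`
  obtain ⟨E2, -, -⟩ := Alg.index_invariance (1 : Γ →* Γ) (powMonoidHom p : Γ →* Γ) A B hBA hfin
    (fun x _ => A.one_mem) (fun x hx => A.pow_mem hx p)
    (fun x _ => B.one_mem) (fun x hx => B.pow_mem hx p)
    (fun x _ => rfl) (fun x _ => by simp)
  -- invariance of the Herbrand quotient of `(1, x ↦ x ^ p)` on `A^σ ⊇ B^σ`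
  have hPσ : ∀ (C : Subgroup Γ), ∀ x ∈ C ⊓ (delHom σ).ker,
      (powMonoidHom p : Γ →* Γ) x ∈ C ⊓ (delHom σ).ker := by
    intro C x hx
    obtain ⟨hxC, hxδ⟩ := Subgroup.mem_inf.mp hx
    refine Subgroup.mem_inf.mpr ⟨C.pow_mem hxC p, ?_⟩
    rw [MonoidHom.mem_ker] at hxδ ⊢
    rw [powMonoidHom_apply, map_pow, hxδ, one_pow]
  obtain ⟨E3, -, -⟩ := Alg.index_invariance (1 : Γ →* Γ) (powMonoidHom p : Γ →* Γ)
    (A ⊓ (delHom σ).ker) (B ⊓ (delHom σ).ker) (inf_le_inf_right _ hBA)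
    (Subgroup.relIndex_inter_ne_zero hfin _)
    (fun x _ => Subgroup.one_mem _) (hPσ A)
    (fun x _ => Subgroup.one_mem _) (hPσ B)
    (fun x _ => rfl) (fun x _ => by simp)
  simp only [MonoidHom.ker_one, inf_top_eq, Subgroup.map_one_eq_bot,
    Subgroup.relIndex_bot_left] at E2 E3
  -- `B` has no `p`-torsion
  have htB : Nat.card ↥(B ⊓ (powMonoidHom p : Γ →* Γ).ker) = 1 := by
    rw [Subgroup.card_eq_one, Subgroup.eq_bot_iff_forall]
    intro x hx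
    obtain ⟨hxB, hxP⟩ := Subgroup.mem_inf.mp hx
    exact htf x hxB (by simpa using MonoidHom.mem_ker.mp hxP)
  have htBσ : Nat.card ↥(B ⊓ (delHom σ).ker ⊓ (powMonoidHom p : Γ →* Γ).ker) = 1 := by
    rw [Subgroup.card_eq_one, Subgroup.eq_bot_iff_forall]
    intro x hx
    obtain ⟨hxBδ, hxP⟩ := Subgroup.mem_inf.mp hx
    exact htf x (Subgroup.mem_inf.mp hxBδ).1 (by simpa using MonoidHom.mem_ker.mp hxP)
  rw [htB, mul_one] at E2
  rw [htBσ, mul_one] at E3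
  exact ⟨ha0 hb0, ha1 hb1, Alg.main_arith p hp.ne_zero _ _ _ _ _ _ _ _ _ _ hb1 E1 E2 E3 hBeq⟩

end Fermat.Agent.S14.FirstIneq
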